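/-
GATE-N / S48 J1-port, P3 (EIG twin), leaf S48-P3-DICT-INT (helper5), file 1/3.

The orbit lemma at the finite values of `j` for an ARBITRARY pair (function field, subgroup), over
an ARBITRARY algebraically closed field of constants `K` of characteristic zero with an embedding
`ι : K →+* ℂ` (for the port: `K = ℂ`, `ι = id`, `F = FC1 M`, `Γ = ±Γ₁(M)`).

This is the `K`-generic form of helper96's `DS/P1/OrbitGen.lean` (which is written for `K = ℚ̄`,
twin of `S24/InteriorOrbit`); the `ℂ`-original is `GJ/J2/Dict/InteriorOrbitC.lean`.  The proofs are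
those of the originals, with `FC N`/`Γ₀(N)` replaced by `F`/`Γ`.
-/
import Fermat.Agent.S24.InteriorOrbit
import Fermat.Agent.S24.Norm
import Fermat.Agent.S24_helper66.NormCard

set_option autoImplicit false
set_option linter.unusedSectionVars false
set_option linter.style.haveILetI false

noncomputable section

namespace Fermat.Agent.DS.P3.DictInt

open UpperHalfPlane MulAction AlgebraicCurve IntermediateField
open Fermat.Agent.S24 Fermat.Agent.S24_helper82
open Fermat.Agent.LevelOne_helper29 (jInv jInv_smul mdifferentiable_jInv)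
open Fermat.Agent.S20_helper25 (Stab mem_Stab card_Stab_smul)
open scoped MatrixGroups

variable {K : Type*} [Field K] {F : Type*} [Field F] [Algebra K F]

/-- A realization of a field `F / K` with distinguished element `jF` by meromorphic functions on
`ℍ`, invariant under the subgroup `Γ` of `SL₂(ℤ)`, with `jF ↦ j`. -/
structure RealK (K : Type*) [Field K] {F : Type*} [Field F] [Algebra K F] (jF : F)
    (Γ : Subgroup SL(2, ℤ)) where
  /-- the embedding of the constants -/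
  ι : K →+* ℂ
  /-- the realization homomorphism -/
  R : F →+* Mer
  R_const : ∀ a : K, R (algebraMap K F a) = algebraMap ℂ Mer (ι a)
  /-- the `j`-function as a holomorphic function -/
  jH : Hol
  jH_apply : ∀ τ : ℍ, (jH : ℍ → ℂ) τ = jInv τ
  R_j : R jF = algebraMap Hol Mer jH
  R_inv : ∀ γ ∈ Γ, ∀ f : F, compM γ (R f) = R f

variable {jF : F} {Γ : Subgroup SL(2, ℤ)} (Z : RealK K jF Γ)

namespace RealK

theorem R_ne_zero {f : F} (hf : f ≠ 0) : Z.R f ≠ 0 := (map_ne_zero Z.R).mpr hf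

/-- the valuation "order at the point `p`" on `F` -/
def valAt (p : ℍ) : IntVal K F where
  toFun f := ordM p (Z.R f)
  map_mul' {f g} hf hg := by
    rw [map_mul]
    exact ordM_mul p (Z.R_ne_zero hf) (Z.R_ne_zero hg)
  map_add' {f g} hf hg hfg := by
    rw [map_add]
    refine min_ordM_le_add p (Z.R_ne_zero hf) (Z.R_ne_zero hg) ?_
    rw [← map_add]
    exact Z.R_ne_zero hfg
  map_algebraMap' c hc := by
    rw [Z.R_const]
    exact ordM_const p ((map_ne_zero Z.ι).mpr hc)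

@[simp] theorem valAt_apply (p : ℍ) (f : F) : Z.valAt p f = ordM p (Z.R f) := rfl

theorem valAt_smul_of_mem {γ : SL(2, ℤ)} (hγ : γ ∈ Γ) (p : ℍ) (f : F) :
    Z.valAt (γ • p) f = Z.valAt p f := by
  rw [valAt_apply, valAt_apply, ← ordM_compM, Z.R_inv γ hγ]

/-- the valuation attached to the coset `i = [g]`: order at `g⁻¹ τ₀` -/
def V (τ₀ : ℍ) (i : SL(2, ℤ) ⧸ Γ) : IntVal K F := Z.valAt ((Quotient.out i)⁻¹ • τ₀)

/-- `V [g]` can be computed with any representative. -/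
theorem V_mk (τ₀ : ℍ) (g : SL(2, ℤ)) (f : F) :
    Z.V τ₀ (QuotientGroup.mk g : SL(2, ℤ) ⧸ Γ) f = ordM (g⁻¹ • τ₀) (Z.R f) := by
  obtain ⟨h, hh⟩ := QuotientGroup.mk_out_eq_mul Γ g
  have h1 : (Quotient.out (QuotientGroup.mk g : SL(2, ℤ) ⧸ Γ))⁻¹ • τ₀ =
      (h : SL(2, ℤ))⁻¹ • (g⁻¹ • τ₀) := by
    rw [hh, mul_inv_rev, mul_smul]
  show Z.valAt ((Quotient.out (QuotientGroup.mk g : SL(2, ℤ) ⧸ Γ))⁻¹ • τ₀) f = _
  rw [h1, Z.valAt_smul_of_mem (inv_mem h.2)]
  rfl

/-- the function `j - a` as an element of `Hol` -/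
def jSub (a : ℂ) : Hol := Z.jH - algebraMap ℂ Hol a

theorem jSub_apply (a : ℂ) (τ : ℍ) : (Z.jSub a : ℍ → ℂ) τ = jInv τ - a := by
  show (Z.jH : ℍ → ℂ) τ - a = _
  rw [Z.jH_apply]

theorem jSub_ne_zero (a : ℂ) : Z.jSub a ≠ 0 := by
  intro h
  obtain ⟨z, hz⟩ := Fermat.Agent.S24.LocalOrder.exists_jInv_eq (a + 1)
  have := Z.jSub_apply a z
  rw [h, hz] at this
  simp at this

theorem R_sub_const (c : K) :
    Z.R (jF - algebraMap K F c) = algebraMap Hol Mer (Z.jSub (Z.ι c)) := by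
  rw [map_sub, Z.R_j, Z.R_const, jSub, map_sub, ← IsScalarTower.algebraMap_apply ℂ Hol Mer]

include Z in
theorem sub_const_ne_zero (c : K) : jF - algebraMap K F c ≠ 0 := by
  intro h
  have h1 := Z.R_sub_const c
  rw [h, map_zero] at h1
  exact algebraMap_ne_zero (Z.jSub_ne_zero (Z.ι c)) h1.symm

variable [IsAlgClosed K]

include Z in
/-- `jF` is transcendental over the constants. -/
theorem transcendental_jF : Transcendental K jF := by
  intro halg
  obtain ⟨p, hp0, hp⟩ := halg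
  -- `jF` algebraic over an algebraically closed field means `jF` is a constant
  have halg' : IsAlgebraic K jF := ⟨p, hp0, hp⟩
  have hint : IsIntegral K jF := halg'.isIntegral
  have hdeg := IsAlgClosed.degree_eq_one_of_irreducible K (minpoly.irreducible hint)
  have hmem : jF ∈ (algebraMap K F).range := minpoly.mem_range_of_degree_eq_one K jF hdeg
  obtain ⟨c, hc⟩ := hmem
  exact Z.sub_const_ne_zero c (by rw [← hc, sub_self])

/-- the order of `j - j(p)` at `p` -/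
theorem ordNat_jSub (p : ℍ) : ordNat p (Z.jSub (jInv p)) = Nat.card (Stab p) / 2 := by
  have h1 := coe_ordNat (Z.jSub_ne_zero (jInv p)) p
  have h2 : ordAt p (Z.jSub (jInv p) : ℍ → ℂ) = ((Nat.card (Stab p) / 2 : ℕ) : ℕ∞) := by
    rw [← Fermat.Agent.S24.LocalOrder.ordAt_eq_card_Stab p]
    have : (Z.jSub (jInv p) : ℍ → ℂ) = fun z => jInv z - jInv p :=
      funext fun z => Z.jSub_apply _ z
    rw [this]
    rfl
  rw [h2] at h1
  exact_mod_cast h1

theorem valAt_sub_const {τ₀ : ℍ} {c : K} (hc : jInv τ₀ = Z.ι c) (g : SL(2, ℤ)) :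
    Z.valAt (g • τ₀) (jF - algebraMap K F c) = (Nat.card (Stab τ₀) / 2 : ℕ) := by
  rw [valAt_apply, Z.R_sub_const, ordM_algebraMap _ (Z.jSub_ne_zero _), ← hc, ← jInv_smul g τ₀,
    Z.ordNat_jSub, card_Stab_smul]

/-- The orbit data at the finite value `c = j(τ₀)`. -/
def orbitData {τ₀ : ℍ} {c : K} (hc : jInv τ₀ = Z.ι c) :
    OrbitData K (jF - algebraMap K F c) (SL(2, ℤ) ⧸ Γ) where
  V := Z.V τ₀
  e₀ := Nat.card (Stab τ₀) / 2
  he₀ := Interior.Realization.half_card_Stab_pos τ₀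
  hx0 := Z.sub_const_ne_zero c
  hVx _ := Z.valAt_sub_const hc _

@[simp] theorem orbitData_V {τ₀ : ℍ} {c : K} (hc : jInv τ₀ = Z.ι c) :
    (Z.orbitData hc).V = Z.V τ₀ := rfl

@[simp] theorem orbitData_e₀ {τ₀ : ℍ} {c : K} (hc : jInv τ₀ = Z.ι c) :
    (Z.orbitData hc).e₀ = Nat.card (Stab τ₀) / 2 := rfl

/-- `hsymm` of `LOC.orbit_lemma`: the valuations are constant on the orbits of the stabiliser. -/
theorem V_smul {τ₀ : ℍ} {s : SL(2, ℤ)} (hs : s • τ₀ = τ₀) (i : SL(2, ℤ) ⧸ Γ) (f : F) :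
    Z.V τ₀ (s • i) f = Z.V τ₀ i f := by
  induction i using QuotientGroup.induction_on with
  | H g =>
    rw [MulAction.Quotient.smul_mk, Z.V_mk, Z.V_mk, smul_eq_mul, mul_inv_rev, mul_smul]
    have : s⁻¹ • τ₀ = τ₀ := by rw [inv_smul_eq_iff, hs]
    rw [this]

theorem neg_one_smul_coset (hneg : (-1 : SL(2, ℤ)) ∈ Γ) (i : SL(2, ℤ) ⧸ Γ) :
    (-1 : SL(2, ℤ)) • i = i := by
  induction i using QuotientGroup.induction_on with
  | H g =>
    rw [MulAction.Quotient.smul_mk, QuotientGroup.eq, smul_eq_mul]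
    have : (-1 * g)⁻¹ * g = -1 := by
      have h : (-1 : SL(2, ℤ))⁻¹ = -1 := by decide
      rw [mul_inv_rev, h]
      simp
    rw [this]
    exact hneg

/-- `hg` of `LOC.orbit_lemma` -/
theorem pow_smul_coset (hneg : (-1 : SL(2, ℤ)) ∈ Γ) {s : SL(2, ℤ)} {e : ℕ}
    (hs : s ^ e = 1 ∨ s ^ e = -1) (i : SL(2, ℤ) ⧸ Γ) : s ^ e • i = i := by
  rcases hs with h | h
  · rw [h, one_smul]
  · rw [h, neg_one_smul_coset hneg]

/-- the rotation lemma on cosets: if `s` fixes `τ₀`, has multiplier a primitive `k`-th root of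
unity at the conjugate points, and fixes the coset `i`, then `k ∣ V i f`. -/
theorem dvd_V_of_fixed {τ₀ : ℍ} {s : SL(2, ℤ)} (hs : s • τ₀ = τ₀) {k : ℕ}
    (hk : ∀ g : SL(2, ℤ), IsPrimitiveRoot (mult (g⁻¹ * s * g) (g⁻¹ • τ₀)) k)
    {i : SL(2, ℤ) ⧸ Γ} (hi : s • i = i) (f : F) : (k : ℤ) ∣ Z.V τ₀ i f := by
  induction i using QuotientGroup.induction_on with
  | H g =>
    rw [MulAction.Quotient.smul_mk, QuotientGroup.eq, smul_eq_mul] at hi
    have hmem : g⁻¹ * s * g ∈ Γ := by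
      have := inv_mem hi
      simpa [mul_assoc] using this
    have hfix : (g⁻¹ * s * g) • (g⁻¹ • τ₀) = g⁻¹ • τ₀ := by
      rw [mul_smul, mul_smul, smul_inv_smul, hs]
    rw [Z.V_mk]
    exact dvd_ordM_of_fixed hfix (hk g) (Z.R_inv _ hmem f)

/-- `hdiv` of `LOC.orbit_lemma`, from the trace of the generator `s` of the stabiliser. -/
theorem hdiv_of_trace {τ₀ : ℍ} {s : SL(2, ℤ)} (hs : s • τ₀ = τ₀)
    (h2 : Nat.card (Stab τ₀) / 2 = 2 → s 0 0 + s 1 1 = 0)
    (h3 : Nat.card (Stab τ₀) / 2 = 3 → (s 0 0 + s 1 1) ^ 2 = 1)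
    (i : SL(2, ℤ) ⧸ Γ) (h : ℕ) (hh : h ∣ Nat.card (Stab τ₀) / 2) (hi : s ^ h • i = i) (f : F) :
    ((Nat.card (Stab τ₀) / 2 / h : ℕ) : ℤ) ∣ Z.V τ₀ i f := by
  have hfixg : ∀ g : SL(2, ℤ), (g⁻¹ * s * g) • (g⁻¹ • τ₀) = g⁻¹ • τ₀ := fun g => by
    rw [mul_smul, mul_smul, smul_inv_smul, hs]
  rcases Fermat.Agent.S20_helper25.card_Stab τ₀ with hc | hc | hc
  · have he : Nat.card (Stab τ₀) / 2 = 1 := by rw [hc]
    rw [he] at hh ⊢
    rw [Nat.dvd_one] at hh
    subst hh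
    simp
  · have he : Nat.card (Stab τ₀) / 2 = 2 := by rw [hc]
    rw [he] at hh ⊢
    rcases (Nat.dvd_prime Nat.prime_two).mp hh with rfl | rfl
    · rw [pow_one] at hi
      refine Z.dvd_V_of_fixed hs (k := 2) (fun g => ?_) hi f
      refine isPrimitiveRoot_mult_of_trace_zero (hfixg g) ?_
      rw [Interior.Realization.trace_conj]
      exact h2 he
    · simp
  · have he : Nat.card (Stab τ₀) / 2 = 3 := by rw [hc]
    rw [he] at hh ⊢
    rcases (Nat.dvd_prime Nat.prime_three).mp hh with rfl | rfl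
    · rw [pow_one] at hi
      refine Z.dvd_V_of_fixed hs (k := 3) (fun g => ?_) hi f
      refine isPrimitiveRoot_mult_of_trace_sq_one (hfixg g) ?_
      rw [Interior.Realization.trace_conj]
      exact h3 he
    · simp

theorem V_eq_ordM_compM (τ₀ : ℍ) (i : SL(2, ℤ) ⧸ Γ) (f : F) :
    Z.V τ₀ i f = ordM τ₀ (compM (Quotient.out i)⁻¹ (Z.R f)) := by
  rw [ordM_compM]
  rfl

variable [Fintype (SL(2, ℤ) ⧸ Γ)]

/-- `hnorm` of `LOC.orbit_lemma`, from the product formula for the conjugate embeddings. -/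
theorem hnorm_of_prod (τ₀ : ℍ) (k : IntermediateField K F)
    (hprod : ∀ (f : F) (i₀ : SL(2, ℤ) ⧸ Γ),
      compM (Quotient.out i₀)⁻¹ (Z.R (algebraMap k F (Algebra.norm k f)))
        = ∏ i : SL(2, ℤ) ⧸ Γ, compM (Quotient.out i)⁻¹ (Z.R f))
    (f : F) (hf : f ≠ 0) (i₀ : SL(2, ℤ) ⧸ Γ) :
    ∑ i : SL(2, ℤ) ⧸ Γ, Z.V τ₀ i f = Z.V τ₀ i₀ (algebraMap k F (Algebra.norm k f)) := by
  rw [Z.V_eq_ordM_compM τ₀ i₀, hprod f i₀, Interior.Realization.ordM_prod]
  · exact Finset.sum_congr rfl fun i _ => Z.V_eq_ordM_compM τ₀ i f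
  · intro i _
    exact (map_ne_zero (compM (Quotient.out i)⁻¹)).mpr (Z.R_ne_zero hf)

/-! ### The orbit lemma at the finite values of `j` -/

section Final

variable {τ₀ : ℍ} {c : K} (hc : jInv τ₀ = Z.ι c)
  (k : IntermediateField K F) [FiniteDimensional k F]

include hc

/-- **The orbit lemma at `j = c`**, generic `(F, Γ)`. -/
theorem orbit_equiv (hneg : (-1 : SL(2, ℤ)) ∈ Γ)
    [Finite (Fibre K (jF - algebraMap K F c))]
    (hN : ∀ f : F, f ≠ 0 → ∀ w₀ : Place K F,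
      0 < w₀.ord (jF - algebraMap K F c) →
      w₀.ord (algebraMap k F (Algebra.norm k f)) =
        w₀.ord (jF - algebraMap K F c) *
          ∑ᶠ w : Fibre K (jF - algebraMap K F c), w.1.ord f)
    (hWA : ∀ w : Fibre K (jF - algebraMap K F c), ∃ f : F, f ≠ 0 ∧
      w.1.ord f = 1 ∧ ∀ w' : Fibre K (jF - algebraMap K F c), w' ≠ w →
        w'.1.ord f = 0)
    (hprod : ∀ (f : F) (i₀ : SL(2, ℤ) ⧸ Γ),
      compM (Quotient.out i₀)⁻¹ (Z.R (algebraMap k F (Algebra.norm k f)))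
        = ∏ i : SL(2, ℤ) ⧸ Γ, compM (Quotient.out i)⁻¹ (Z.R f))
    {s : SL(2, ℤ)} (hs : s • τ₀ = τ₀)
    (hpow : s ^ (Nat.card (Stab τ₀) / 2) = 1 ∨ s ^ (Nat.card (Stab τ₀) / 2) = -1)
    (h2 : Nat.card (Stab τ₀) / 2 = 2 → s 0 0 + s 1 1 = 0)
    (h3 : Nat.card (Stab τ₀) / 2 = 3 → (s 0 0 + s 1 1) ^ 2 = 1) :
    ∃ φ : orbitRel.Quotient (Subgroup.zpowers s) (SL(2, ℤ) ⧸ Γ) ≃
        Fibre K (jF - algebraMap K F c),
      (∀ i : SL(2, ℤ) ⧸ Γ, φ (Quotient.mk'' i) = (Z.orbitData hc).place i) ∧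
      ∀ o, ((φ o).1.ord (jF - algebraMap K F c) : ℤ) = Nat.card o.orbit :=
  orbit_lemma k _ hN hWA s (Z.orbitData hc)
    (fun f hf i₀ => Z.hnorm_of_prod τ₀ k hprod f hf i₀)
    (fun i f => Z.V_smul hs i f)
    (fun i => pow_smul_coset hneg hpow i)
    (fun i h hh hi f _ => Z.hdiv_of_trace hs h2 h3 i h hh hi f)

end Final

/-! ### The three cases, with the norm package and the product formula discharged -/

section Counts

open Fermat.Agent.S24_helper66 ModularGroup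
open scoped Modular

variable [CharZero K] [FiniteDimensional K⟮jF⟯ F]

/-- the conjugate embeddings `f ↦ (R f) ∘ g⁻¹`, `g` running through coset representatives -/
def conj (q : SL(2, ℤ) ⧸ Γ) : F →+* Mer := (compM (Quotient.out q)⁻¹).comp Z.R

theorem conj_apply (q : SL(2, ℤ) ⧸ Γ) (f : F) :
    Z.conj q f = compM (Quotient.out q)⁻¹ (Z.R f) := rfl

theorem conj_const (q : SL(2, ℤ) ⧸ Γ) (c : K) :
    Z.conj q (algebraMap K F c) = algebraMap ℂ Mer (Z.ι c) := by
  rw [conj_apply, Z.R_const, compM_const]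

theorem compSL_jH (g : SL(2, ℤ)) : compSL g Z.jH = Z.jH := by
  apply Subtype.ext
  funext z
  show (Z.jH : ℍ → ℂ) (g • z) = (Z.jH : ℍ → ℂ) z
  rw [Z.jH_apply, Z.jH_apply, jInv_smul]

theorem conj_jF (q : SL(2, ℤ) ⧸ Γ) : Z.conj q jF = algebraMap Hol Mer Z.jH := by
  rw [conj_apply, Z.R_j, compM_algebraMap, compSL_jH]

/-- **the product formula** `hprod` of the orbit lemma, from distinctness of the conjugate
embeddings and `[F : K(j)] = #(SL₂(ℤ)/Γ)`. -/
theorem hprod (hinj : Function.Injective Z.conj)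
    (hcard : Fintype.card (SL(2, ℤ) ⧸ Γ) = Module.finrank K⟮jF⟯ F)
    (f : F) (i₀ : SL(2, ℤ) ⧸ Γ) :
    compM (Quotient.out i₀)⁻¹ (Z.R (algebraMap K⟮jF⟯ F (Algebra.norm K⟮jF⟯ f)))
      = ∏ i : SL(2, ℤ) ⧸ Γ, compM (Quotient.out i)⁻¹ (Z.R f) :=
  ringHom_norm_eq_prod jF Z.conj i₀
    (fun q c => by rw [conj_const, conj_const])
    (fun q => by rw [conj_jF, conj_jF]) hinj hcard f

include Z in
/-- the `NORM` package at `x = j - c`, with `k = K(j)` -/
theorem norm_package (c : K) :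
    Finite (Fibre K (jF - algebraMap K F c)) ∧
    (∀ f : F, f ≠ 0 → ∀ w₀ : Place K F,
      0 < w₀.ord (jF - algebraMap K F c) →
      w₀.ord (algebraMap K⟮jF⟯ F (Algebra.norm K⟮jF⟯ f)) =
        w₀.ord (jF - algebraMap K F c) *
          ∑ᶠ w : Fibre K (jF - algebraMap K F c), w.1.ord f) ∧
    (∀ w : Fibre K (jF - algebraMap K F c), ∃ f : F, f ≠ 0 ∧
      w.1.ord f = 1 ∧ ∀ w' : Fibre K (jF - algebraMap K F c), w' ≠ w →
        w'.1.ord f = 0) := by
  have hk : K⟮jF⟯ = K⟮jF - algebraMap K F c⟯ :=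
    (Norm.adjoin_simple_sub_algebraMap jF c).symm
  haveI : FiniteDimensional K⟮jF - algebraMap K F c⟯ F := by
    rw [← hk]; infer_instance
  exact Norm.fibre_package (jF - algebraMap K F c)
    (Norm.transcendental_sub_algebraMap Z.transcendental_jF c) K⟮jF⟯ hk

end Counts

end RealK

end Fermat.Agent.DS.P3.DictInt
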