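/-
GATE-N / S48 J1-port, P3 (EIG twin), leaf S48-P3-DICT-INT (helper5), file 2/3.

**The interior dictionary** for an ARBITRARY pair (function field `F / K`, subgroup `Γ ≤ SL(2,ℤ)`)
given a FULL realization `Z : RealK K jF Γ` (`Z.IsFull`: `-1 ∈ Γ`, `ι` onto `ℂ`, the conjugate
embeddings `f ↦ (R f) ∘ gᵢ⁻¹` pairwise distinct, `[F : K(jF)] = #(SL₂(ℤ)/Γ)` — the P1 contract of
helper96's `DS/P1/OrbitGen`):

* `placeAt Z hZ τ : Place K F`, `eAt Z hZ τ`, **(E1)** `ordM τ (Z.R f) = eAt τ * (placeAt τ).ord f`;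
* `eAt_spec` : `eAt τ` is the order of (the multiplier of) an elliptic element of `Γ` fixing `τ`
  — in particular `eAt ≡ 1` when `Γ/±1` is torsion free (`eAt_eq_one`);
* `placeAt_eq_iff` : `placeAt τ = placeAt τ'` iff `τ' ∈ Γ τ`;
* **(E3)** `exists_placeAt_eq` : every place at which `jF` has no pole is some `placeAt τ`.

`K`-generic twin of `GJ/J2/Dict/InteriorAsmC.lean` (which is written for `FC N`, `Γ₀(N)`).
-/
import Fermat.Agent.DS.P3.DictInt.OrbitK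
import Fermat.Agent.S24.DegOne

set_option autoImplicit false
set_option linter.unusedSectionVars false
set_option linter.style.haveILetI false

noncomputable section

namespace Fermat.Agent.DS.P3.DictInt

open UpperHalfPlane MulAction AlgebraicCurve IntermediateField
open Fermat.Agent.S24 Fermat.Agent.S24_helper82
open Fermat.Agent.LevelOne_helper29 (jInv jInv_smul)
open Fermat.Agent.S20_helper25 (Stab mem_Stab card_Stab_smul)
open scoped MatrixGroups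

variable {K : Type*} [Field K] [IsAlgClosed K] [CharZero K] {F : Type*} [Field F] [Algebra K F]
  {jF : F} {Γ : Subgroup SL(2, ℤ)} [Fintype (SL(2, ℤ) ⧸ Γ)] [FiniteDimensional K⟮jF⟯ F]
  (Z : RealK K jF Γ)

/-- **The P1 contract** for the interior dictionary: `-1 ∈ Γ`, every complex number is a constant,
the conjugate embeddings are pairwise distinct, and the degree over `K(jF)` is the index. -/
structure RealK.IsFull : Prop where
  neg_one_mem : (-1 : SL(2, ℤ)) ∈ Γ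
  ι_surjective : Function.Surjective Z.ι
  conj_injective : Function.Injective Z.conj
  card_eq : Fintype.card (SL(2, ℤ) ⧸ Γ) = Module.finrank K⟮jF⟯ F

variable {Z}

namespace RealK

/-! ### base points -/

open ModularGroup in
open scoped Modular in
/-- a base point over every value of `j`, with a generator of its stabiliser modulo `±1` -/
theorem exists_basePt (c : ℂ) : ∃ (τ₀ : ℍ) (s : SL(2, ℤ)), jInv τ₀ = c ∧ s • τ₀ = τ₀ ∧
    (s ^ (Nat.card (Stab τ₀) / 2) = 1 ∨ s ^ (Nat.card (Stab τ₀) / 2) = -1) ∧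
    (Nat.card (Stab τ₀) / 2 = 2 → s 0 0 + s 1 1 = 0) ∧
    (Nat.card (Stab τ₀) / 2 = 3 → (s 0 0 + s 1 1) ^ 2 = 1) := by
  by_cases h1 : c = 1728
  · refine ⟨UpperHalfPlane.I, S, ?_, mem_Stab.mp Fermat.Agent.S20_helper25.S_mem_Stab_I, ?_,
      fun _ => by decide, ?_⟩
    · rw [h1]; exact Fermat.Agent.LevelOne_helper29.jInv_I
    · rw [Fermat.Agent.S20_helper25.card_Stab_I]
      exact Or.inr Fermat.Agent.S20_helper25.S_sq
    · intro h; rw [Fermat.Agent.S20_helper25.card_Stab_I] at h; omega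
  by_cases h0 : c = 0
  · refine ⟨ρ, S * T, ?_, mem_Stab.mp Fermat.Agent.S20_helper25.ST_mem_Stab_rho, ?_, ?_,
      fun _ => by decide⟩
    · rw [h0]; exact Fermat.Agent.LevelOne_helper29.jInv_rho
    · rw [Fermat.Agent.S20_helper25.card_Stab_rho]
      exact Or.inr Fermat.Agent.S20_helper25.ST_pow_three
    · intro h; rw [Fermat.Agent.S20_helper25.card_Stab_rho] at h; omega
  · obtain ⟨τ₀, hτ₀⟩ := Fermat.Agent.S24.LocalOrder.exists_jInv_eq c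
    have hcard : Nat.card (Stab τ₀) = 2 := by
      refine Fermat.Agent.S20_helper25.card_Stab_of_generic (fun g hg => h1 ?_) (fun g hg => h0 ?_)
      · rw [← hτ₀]; exact (Fermat.Agent.S24.LocalOrder.jInv_eq_1728_iff_orbit τ₀).mpr ⟨g, hg⟩
      · rw [← hτ₀]; exact (Fermat.Agent.S24.LocalOrder.jInv_eq_zero_iff_orbit τ₀).mpr ⟨g, hg⟩
    refine ⟨τ₀, 1, hτ₀, one_smul _ _, Or.inl (one_pow _), ?_, ?_⟩ <;> intro h <;>
      rw [hcard] at h <;> omega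

/-! ### the place at a point of `ℍ` -/

/-- the constant `c : K` with `ι c = j(τ)` -/
def cAt (hZ : Z.IsFull) (τ : ℍ) : K := (hZ.ι_surjective (jInv τ)).choose

theorem ι_cAt (hZ : Z.IsFull) (τ : ℍ) : Z.ι (cAt hZ τ) = jInv τ :=
  (hZ.ι_surjective (jInv τ)).choose_spec

theorem cAt_smul (hZ : Z.IsFull) (g : SL(2, ℤ)) (τ : ℍ) : cAt hZ (g • τ) = cAt hZ τ := by
  apply Z.ι.injective
  rw [ι_cAt, ι_cAt, jInv_smul]

theorem valAt_jF_sub (hZ : Z.IsFull) (τ : ℍ) :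
    Z.valAt τ (jF - algebraMap K F (cAt hZ τ)) = (Nat.card (Stab τ) / 2 : ℕ) := by
  have h := Z.valAt_sub_const (τ₀ := τ) (c := cAt hZ τ) (ι_cAt hZ τ).symm 1
  rwa [one_smul] at h

theorem valAt_nontrivial (hZ : Z.IsFull) (τ : ℍ) : (Z.valAt τ).IsNontrivial :=
  ⟨jF - algebraMap K F (cAt hZ τ), Z.sub_const_ne_zero _, by
    rw [valAt_jF_sub hZ]
    exact_mod_cast (Interior.Realization.half_card_Stab_pos τ).ne'⟩

/-- the place of `F` at the image of `τ ∈ ℍ` -/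
def placeAt (hZ : Z.IsFull) (τ : ℍ) : Place K F := IntVal.placeOf (valAt_nontrivial hZ τ)

/-- the ramification index of `ℍ → X_Γ` at `τ` (see `eAt_spec`) -/
def eAt (hZ : Z.IsFull) (τ : ℍ) : ℤ := IntVal.mult (valAt_nontrivial hZ τ)

theorem eAt_pos (hZ : Z.IsFull) (τ : ℍ) : 0 < eAt hZ τ := IntVal.mult_pos _

/-- **(E1)** the order of vanishing of the realisation at `τ` -/
theorem ordM_R (hZ : Z.IsFull) (τ : ℍ) {f : F} (hf : f ≠ 0) :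
    ordM τ (Z.R f) = eAt hZ τ * (placeAt hZ τ).ord f :=
  IntVal.eq_mult_mul_ord (valAt_nontrivial hZ τ) hf

theorem eAt_mul_ord_jF_sub (hZ : Z.IsFull) (τ : ℍ) :
    eAt hZ τ * (placeAt hZ τ).ord (jF - algebraMap K F (cAt hZ τ)) =
      (Nat.card (Stab τ) / 2 : ℕ) := by
  rw [← valAt_jF_sub hZ τ]
  exact (IntVal.eq_mult_mul_ord (valAt_nontrivial hZ τ) (Z.sub_const_ne_zero _)).symm

theorem ord_placeAt_jF_sub_pos (hZ : Z.IsFull) (τ : ℍ) :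
    0 < (placeAt hZ τ).ord (jF - algebraMap K F (cAt hZ τ)) := by
  have h := eAt_mul_ord_jF_sub hZ τ
  have h1 := eAt_pos hZ τ
  have h2 : (0 : ℤ) < (Nat.card (Stab τ) / 2 : ℕ) := by
    exact_mod_cast Interior.Realization.half_card_Stab_pos τ
  rw [← h] at h2
  by_contra hle
  rw [not_lt] at hle
  nlinarith

theorem placeAt_congr (hZ : Z.IsFull) {τ τ' : ℍ} (h : ∀ f, Z.valAt τ f = Z.valAt τ' f) :
    placeAt hZ τ = placeAt hZ τ' ∧ eAt hZ τ = eAt hZ τ' :=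
  IntVal.placeOf_congr (valAt_nontrivial hZ τ) (valAt_nontrivial hZ τ') h

/-- the place only depends on the `Γ`-orbit -/
theorem placeAt_smul_of_mem (hZ : Z.IsFull) {γ : SL(2, ℤ)} (hγ : γ ∈ Γ) (τ : ℍ) :
    placeAt hZ (γ • τ) = placeAt hZ τ ∧ eAt hZ (γ • τ) = eAt hZ τ :=
  placeAt_congr hZ fun f => Z.valAt_smul_of_mem hγ τ f

/-! ### the orbit lemma at every finite value of `j` -/

/-- **The orbit lemma at `j = j(τ₀)`**, in terms of `placeAt`, `eAt`. -/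
theorem orbit_equivK (hZ : Z.IsFull) {τ₀ : ℍ} {s : SL(2, ℤ)} (hs : s • τ₀ = τ₀)
    (hpow : s ^ (Nat.card (Stab τ₀) / 2) = 1 ∨ s ^ (Nat.card (Stab τ₀) / 2) = -1)
    (h2 : Nat.card (Stab τ₀) / 2 = 2 → s 0 0 + s 1 1 = 0)
    (h3 : Nat.card (Stab τ₀) / 2 = 3 → (s 0 0 + s 1 1) ^ 2 = 1) :
    ∃ φ : orbitRel.Quotient (Subgroup.zpowers s) (SL(2, ℤ) ⧸ Γ) ≃
        Fibre K (jF - algebraMap K F (cAt hZ τ₀)),
      (∀ i : SL(2, ℤ) ⧸ Γ,
        (φ (Quotient.mk'' i)).1 = placeAt hZ ((Quotient.out i)⁻¹ • τ₀)) ∧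
      ∀ i : SL(2, ℤ) ⧸ Γ, eAt hZ ((Quotient.out i)⁻¹ • τ₀) *
        (Nat.card (orbit (Subgroup.zpowers s) i) : ℤ) = (Nat.card (Stab τ₀) / 2 : ℕ) := by
  obtain ⟨hfin, hN, hWA⟩ := Z.norm_package (cAt hZ τ₀)
  haveI := hfin
  have hc : jInv τ₀ = Z.ι (cAt hZ τ₀) := (ι_cAt hZ τ₀).symm
  obtain ⟨φ, hφ1, hφ2⟩ := Z.orbit_equiv hc K⟮jF⟯ hZ.neg_one_mem hN hWA
    (Z.hprod hZ.conj_injective hZ.card_eq) hs hpow h2 h3
  refine ⟨φ, fun i => ?_, fun i => ?_⟩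
  · rw [hφ1 i]
    rfl
  · have h4 := (Z.orbitData hc).mult_mul_ord_x i
    have h5 := hφ2 (Quotient.mk'' i)
    rw [hφ1 i] at h5
    rw [h5, orbitRel.Quotient.orbit_mk] at h4
    exact h4

/-! ### exhaustion -/

/-- **(E3), finite part**: every place of `F` at which `jF` has no pole is the place at a point of
`ℍ`. -/
theorem exists_placeAt_eq (hZ : Z.IsFull) (P : Place K F) (hP : ¬ P.ord jF < 0) :
    ∃ τ : ℍ, P = placeAt hZ τ := by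
  haveI : IsGen K jF := ⟨Z.transcendental_jF, inferInstance⟩
  rcases PlaceB.pole_or_center P jF with h | ⟨c, hc⟩
  · exact absurd h hP
  obtain ⟨τ₀, s, hτ₀, hs, hpow, h2, h3⟩ := exists_basePt (Z.ι c)
  have hcc : cAt hZ τ₀ = c := by
    apply Z.ι.injective
    rw [ι_cAt, hτ₀]
  subst hcc
  obtain ⟨φ, hφ1, -⟩ := orbit_equivK hZ hs hpow h2 h3
  obtain ⟨o, ho⟩ := φ.surjective ⟨P, hc⟩
  induction o using Quotient.inductionOn' with
  | h i =>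
    refine ⟨(Quotient.out i)⁻¹ • τ₀, ?_⟩
    rw [← hφ1 i]
    exact (congrArg Subtype.val ho).symm

/-! ### the ramification index and the fibres of `τ ↦ placeAt τ` -/

theorem valAt_out_inv_smul (τ₀ : ℍ) (g : SL(2, ℤ)) (f : F) :
    Z.valAt ((Quotient.out (g : SL(2, ℤ) ⧸ Γ))⁻¹ • τ₀) f = Z.valAt (g⁻¹ • τ₀) f :=
  Z.V_mk τ₀ g f

theorem placeAt_out_inv_smul (hZ : Z.IsFull) (τ₀ : ℍ) (g : SL(2, ℤ)) :
    placeAt hZ ((Quotient.out (g : SL(2, ℤ) ⧸ Γ))⁻¹ • τ₀) = placeAt hZ (g⁻¹ • τ₀) ∧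
      eAt hZ ((Quotient.out (g : SL(2, ℤ) ⧸ Γ))⁻¹ • τ₀) = eAt hZ (g⁻¹ • τ₀) :=
  placeAt_congr hZ fun f => valAt_out_inv_smul τ₀ g f

theorem mult_one' (τ : ℍ) : mult 1 τ = 1 := by
  simp [mult, den]

theorem conj_mem_of_smul_eq {s g : SL(2, ℤ)}
    (hi : s • (g : SL(2, ℤ) ⧸ Γ) = (g : SL(2, ℤ) ⧸ Γ)) : g⁻¹ * s * g ∈ Γ := by
  rw [MulAction.Quotient.smul_mk, QuotientGroup.eq, smul_eq_mul] at hi
  have := inv_mem hi
  simpa [mul_assoc] using this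

/-- **(E1), ramification**: `eAt τ` is the order of (the multiplier of) an elliptic element of `Γ`
fixing `τ`. In particular, if `h ∈ Mer` is invariant under the elements of `Γ` fixing `τ` then
`eAt τ ∣ ordM τ h` (`dvd_ordM_of_fixed`). -/
theorem eAt_spec (hZ : Z.IsFull) (τ : ℍ) : ∃ γ ∈ Γ, γ • τ = τ ∧
    IsPrimitiveRoot (mult γ τ) (eAt hZ τ).toNat := by
  obtain ⟨τ₀, s, hτ₀, hs, hpow, h2, h3⟩ := exists_basePt (jInv τ)
  obtain ⟨γ, hγ⟩ := (Fermat.Agent.S24.LocalOrder.jInv_eq_iff τ₀ τ).mp hτ₀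
  have hτ : τ = (γ⁻¹)⁻¹ • τ₀ := by rw [inv_inv]; exact hγ
  obtain ⟨φ, -, hφ2⟩ := orbit_equivK hZ hs hpow h2 h3
  have h4 := hφ2 ((γ⁻¹ : SL(2, ℤ)) : SL(2, ℤ) ⧸ Γ)
  rw [(placeAt_out_inv_smul hZ τ₀ γ⁻¹).2, ← hτ] at h4
  have hpos := eAt_pos hZ τ
  by_cases h1 : eAt hZ τ = 1
  · refine ⟨1, one_mem _, one_smul _ _, ?_⟩
    rw [h1, mult_one']
    exact IsPrimitiveRoot.one
  · -- the orbit of the coset is a point
    set n := Nat.card (orbit (Subgroup.zpowers s) ((γ⁻¹ : SL(2, ℤ)) : SL(2, ℤ) ⧸ Γ)) with hn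
    have he₀ : Nat.card (Stab τ₀) / 2 = 1 ∨ Nat.card (Stab τ₀) / 2 = 2 ∨
        Nat.card (Stab τ₀) / 2 = 3 := by
      rcases Fermat.Agent.S20_helper25.card_Stab τ₀ with h | h | h <;> rw [h] <;> simp
    have hn1 : n = 1 ∧ eAt hZ τ = (Nat.card (Stab τ₀) / 2 : ℕ) := by
      have ha2 : 2 ≤ eAt hZ τ := by omega
      rcases Nat.lt_or_ge n 2 with hlt | hge
      · interval_cases n
        · rcases he₀ with h | h | h <;> rw [h] at h4 <;> simp at h4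
        · exact ⟨rfl, by simpa using h4⟩
      · exfalso
        have : (2 : ℤ) ≤ (n : ℤ) := by exact_mod_cast hge
        rcases he₀ with h | h | h <;> rw [h] at h4 <;> push_cast at h4 <;> nlinarith
    have hfix : s • ((γ⁻¹ : SL(2, ℤ)) : SL(2, ℤ) ⧸ Γ) = ((γ⁻¹ : SL(2, ℤ)) : SL(2, ℤ) ⧸ Γ) := by
      have hsub : Subsingleton
          (orbit (Subgroup.zpowers s) ((γ⁻¹ : SL(2, ℤ)) : SL(2, ℤ) ⧸ Γ)) :=
        (Nat.card_eq_one_iff_unique.mp hn1.1).1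
      have h5 : s • ((γ⁻¹ : SL(2, ℤ)) : SL(2, ℤ) ⧸ Γ) ∈
          orbit (Subgroup.zpowers s) ((γ⁻¹ : SL(2, ℤ)) : SL(2, ℤ) ⧸ Γ) :=
        ⟨⟨s, Subgroup.mem_zpowers s⟩, rfl⟩
      have h6 := hsub.elim ⟨_, h5⟩ ⟨_, mem_orbit_self _⟩
      exact congrArg Subtype.val h6
    have hmem := conj_mem_of_smul_eq hfix
    have hfixτ : ((γ⁻¹)⁻¹ * s * γ⁻¹) • τ = τ := by
      rw [hτ, mul_smul, mul_smul, smul_inv_smul, hs]
    refine ⟨(γ⁻¹)⁻¹ * s * γ⁻¹, hmem, hfixτ, ?_⟩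
    rw [hn1.2, Int.toNat_natCast]
    rcases he₀ with h | h | h
    · rw [h] at hn1; exact absurd (by simpa using hn1.2) h1
    · rw [h]
      refine isPrimitiveRoot_mult_of_trace_zero hfixτ ?_
      rw [Interior.Realization.trace_conj]
      exact h2 h
    · rw [h]
      refine isPrimitiveRoot_mult_of_trace_sq_one hfixτ ?_
      rw [Interior.Realization.trace_conj]
      exact h3 h

theorem eAt_le_three (hZ : Z.IsFull) (τ : ℍ) : eAt hZ τ ≤ 3 := by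
  have h := eAt_mul_ord_jF_sub hZ τ
  have h1 := ord_placeAt_jF_sub_pos hZ τ
  have h2 := eAt_pos hZ τ
  have h3 : (Nat.card (Stab τ) / 2 : ℕ) ≤ 3 := by
    rcases Fermat.Agent.S20_helper25.card_Stab τ with h | h | h <;> rw [h] <;> norm_num
  have h4 : ((Nat.card (Stab τ) / 2 : ℕ) : ℤ) ≤ 3 := by exact_mod_cast h3
  nlinarith

theorem zpowers_smul_eq' {s : SL(2, ℤ)} {τ₀ : ℍ} (hs : s • τ₀ = τ₀) {z : SL(2, ℤ)}
    (hz : z ∈ Subgroup.zpowers s) : z • τ₀ = τ₀ := by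
  have hle : Subgroup.zpowers s ≤ MulAction.stabilizer SL(2, ℤ) τ₀ :=
    Subgroup.zpowers_le.mpr (MulAction.mem_stabilizer_iff.mpr hs)
  exact MulAction.mem_stabilizer_iff.mp (hle hz)

/-- **(E1), fibres**: two points of `ℍ` give the same place iff they are `Γ`-equivalent. -/
theorem placeAt_eq_iff (hZ : Z.IsFull) (τ τ' : ℍ) :
    placeAt hZ τ = placeAt hZ τ' ↔ ∃ γ ∈ Γ, γ • τ = τ' := by
  constructor
  · intro h
    have h1 := ord_placeAt_jF_sub_pos hZ τ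
    have h2 := ord_placeAt_jF_sub_pos hZ τ'
    rw [← h] at h2
    have hcc : cAt hZ τ = cAt hZ τ' := PlaceB.center_unique (placeAt hZ τ) h1 h2
    have hj : jInv τ = jInv τ' := by rw [← ι_cAt hZ τ, ← ι_cAt hZ τ', hcc]
    obtain ⟨τ₀, s, hτ₀, hs, hpow, h2', h3⟩ := exists_basePt (jInv τ)
    obtain ⟨γ, hγ⟩ := (Fermat.Agent.S24.LocalOrder.jInv_eq_iff τ₀ τ).mp hτ₀
    obtain ⟨γ', hγ'⟩ := (Fermat.Agent.S24.LocalOrder.jInv_eq_iff τ₀ τ').mp (hτ₀.trans hj)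
    have hτ : τ = (γ⁻¹)⁻¹ • τ₀ := by rw [inv_inv]; exact hγ
    have hτ' : τ' = (γ'⁻¹)⁻¹ • τ₀ := by rw [inv_inv]; exact hγ'
    obtain ⟨φ, hφ1, -⟩ := orbit_equivK hZ hs hpow h2' h3
    have e1 : (φ (Quotient.mk'' ((γ⁻¹ : SL(2, ℤ)) : SL(2, ℤ) ⧸ Γ))).1 = placeAt hZ τ := by
      rw [hφ1, (placeAt_out_inv_smul hZ τ₀ γ⁻¹).1, ← hτ]
    have e2 : (φ (Quotient.mk'' ((γ'⁻¹ : SL(2, ℤ)) : SL(2, ℤ) ⧸ Γ))).1 = placeAt hZ τ' := by
      rw [hφ1, (placeAt_out_inv_smul hZ τ₀ γ'⁻¹).1, ← hτ']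
    have e3 : φ (Quotient.mk'' ((γ⁻¹ : SL(2, ℤ)) : SL(2, ℤ) ⧸ Γ)) =
        φ (Quotient.mk'' ((γ'⁻¹ : SL(2, ℤ)) : SL(2, ℤ) ⧸ Γ)) :=
      Subtype.ext (e1.trans (h.trans e2.symm))
    have e4 := φ.injective e3
    have e5 : ((γ⁻¹ : SL(2, ℤ)) : SL(2, ℤ) ⧸ Γ) ∈
        orbit (Subgroup.zpowers s) ((γ'⁻¹ : SL(2, ℤ)) : SL(2, ℤ) ⧸ Γ) := Quotient.exact' e4
    obtain ⟨⟨z, hz⟩, hzg⟩ := e5
    have hzτ := zpowers_smul_eq' hs hz
    have e6 : ((z * γ'⁻¹ : SL(2, ℤ)) : SL(2, ℤ) ⧸ Γ) = ((γ⁻¹ : SL(2, ℤ)) : SL(2, ℤ) ⧸ Γ) := hzg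
    have e7 : (z * γ'⁻¹)⁻¹ * γ⁻¹ ∈ Γ := QuotientGroup.eq.mp e6
    refine ⟨((z * γ'⁻¹)⁻¹ * γ⁻¹), e7, ?_⟩
    rw [hγ, hγ', mul_smul, inv_smul_smul, mul_inv_rev, inv_inv, mul_smul]
    congr 1
    rw [inv_smul_eq_iff, hzτ]
  · rintro ⟨γ, hγ, rfl⟩
    exact (placeAt_smul_of_mem hZ hγ τ).1.symm

end RealK

end Fermat.Agent.DS.P3.DictInt
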