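/-
GATE-N / S48 J1-port, P3 (EIG twin), leaf S48-P3-DICT-INT (helper5), file 3/3.

**(P), interior half**, and the weak dictionary **(E1)**, for an ARBITRARY full realization
`Z : RealK K jF Γ` (`DS/P3/DictInt/PlaceAtK`):

* `dvd_ord_of_pow_eq_interiorK` : if `Z.R u = h ^ p` with `h : Mer` invariant under the elements of
  `Γ` having a fixed point in `ℍ`, then `p ∣ P.ord u` for every place `P` of `F` at which `jF` has
  no pole;
* `dvd_ord_of_datum_interiorK` : the same for a Kummer datum `IsKumDatumG Γ₁ Z.R ζ ψ h u`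
  (helper94's `DS/P3/KumCoreG`) of a homomorphism `ψ : Γ₁ → ℤ/p` killing the elements of finite
  order, where `Γ ⊆ ±Γ₁` (for the port: `Γ₁ = Γ₁(M)`, `Γ = ±Γ₁(M)`);
* `e1_weak` : `∀ τ, ∃ P e, ∀ f ≠ 0, ordM τ (Z.R f) = e * P.ord f` (the input `E1` of KUM-FIN);
* `eAt_eq_one`, `ordM_R_of_torsionFree` : no ramification when `Γ/±1` acts freely.

`K`-generic twin of `GJ/J2/Dict/PDivInterior.lean`.
-/
import Fermat.Agent.DS.P3.DictInt.PlaceAtK
import Fermat.Agent.DS.P3.KumCoreG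

set_option autoImplicit false
set_option linter.unusedSectionVars false
set_option linter.style.haveILetI false

noncomputable section

namespace Fermat.Agent.DS.P3.DictInt

open UpperHalfPlane MulAction AlgebraicCurve IntermediateField
open Fermat.Agent.S24 Fermat.Agent.S24_helper82
open Fermat.Agent.S20_helper25 (Stab mem_Stab)
open scoped MatrixGroups

/-! ### `-g` acts like `g` -/

theorem compSL_neg' (g : SL(2, ℤ)) (f : Hol) : compSL (-g) f = compSL g f := by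
  apply Subtype.ext
  funext z
  show (f : ℍ → ℂ) ((-g) • z) = (f : ℍ → ℂ) (g • z)
  rw [ModularGroup.SL_neg_smul]

theorem compM_neg' (g : SL(2, ℤ)) (m : Mer) : compM (-g) m = compM g m := by
  by_cases hm : m = 0
  · subst hm; simp
  obtain ⟨a, b, ha, hb, rfl⟩ := exists_div_eq m hm
  rw [compM_div, compM_div, compSL_neg', compSL_neg']

/-- an element of `SL(2, ℤ)` with a fixed point in `ℍ` has finite order -/
theorem isOfFinOrder_of_smul_eq' {γ : SL(2, ℤ)} {τ : ℍ} (h : γ • τ = τ) : IsOfFinOrder γ := by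
  have hfin : Finite (Stab τ) := by
    apply Nat.finite_of_card_ne_zero
    rcases Fermat.Agent.S20_helper25.card_Stab τ with h | h | h <;> rw [h] <;> norm_num
  have h1 : IsOfFinOrder (⟨γ, mem_Stab.mpr h⟩ : Stab τ) := isOfFinOrder_of_finite _
  rw [← orderOf_pos_iff] at h1 ⊢
  rwa [Subgroup.orderOf_mk] at h1

variable {K : Type*} [Field K] [IsAlgClosed K] [CharZero K] {F : Type*} [Field F] [Algebra K F]
  {jF : F} {Γ : Subgroup SL(2, ℤ)} [Fintype (SL(2, ℤ) ⧸ Γ)] [FiniteDimensional K⟮jF⟯ F]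
  {Z : RealK K jF Γ}

namespace RealK

/-- **(P), interior half, general form.** -/
theorem dvd_ord_of_pow_eq_interiorK (hZ : Z.IsFull) {p : ℕ} {u : F} (hu : u ≠ 0) {h : Mer}
    (hpow : Z.R u = h ^ p)
    (hell : ∀ γ ∈ Γ, ∀ τ : ℍ, γ • τ = τ → compM γ h = h)
    (P : Place K F) (hP : ¬ P.ord jF < 0) : (p : ℤ) ∣ P.ord u := by
  obtain ⟨τ, rfl⟩ := exists_placeAt_eq hZ P hP
  obtain ⟨γ, hγ, hfix, hprim⟩ := eAt_spec hZ τ
  have h1 := ordM_R hZ τ hu
  rw [hpow, ordM_pow] at h1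
  obtain ⟨m, hm⟩ := dvd_ordM_of_fixed hfix hprim (hell γ hγ τ hfix)
  rw [Int.toNat_of_nonneg (eAt_pos hZ τ).le] at hm
  rw [hm] at h1
  have hne : eAt hZ τ ≠ 0 := (eAt_pos hZ τ).ne'
  have h2 : eAt hZ τ * ((placeAt hZ τ).ord u) = eAt hZ τ * ((p : ℤ) * m) := by
    rw [← h1]; ring
  exact ⟨m, mul_left_cancel₀ hne h2⟩

open Fermat.Agent.DS.P3.KumCoreG Fermat.Agent.GJ.HeckeMer in
/-- **(P), interior half, for a Kummer datum** on `Γ₁` (with `Γ ⊆ ±Γ₁`) whose `ψ` kills the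
elements of finite order. -/
theorem dvd_ord_of_datum_interiorK (hZ : Z.IsFull) {Γ₁ : Subgroup SL(2, ℤ)}
    (hsub : ∀ γ ∈ Γ, γ ∈ Γ₁ ∨ -γ ∈ Γ₁) {p : ℕ} [NeZero p] {ζ : ℂ}
    {ψ : Additive Γ₁ →+ ZMod p} {h : Mer} {u : F}
    (D : IsKumDatumG Γ₁ Z.R ζ ψ h u)
    (hfin : ∀ g : Γ₁, IsOfFinOrder g → ψ (Additive.ofMul g) = 0)
    (P : Place K F) (hP : ¬ P.ord jF < 0) : (p : ℤ) ∣ P.ord u := by
  have hu : u ≠ 0 := D.ne_zero
  have hpow : Z.R u = h ^ p := D.2.2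
  have hmult : HasMultG Γ₁ ζ ψ h := D.2.1
  have key : ∀ γ : SL(2, ℤ), γ ∈ Γ₁ → ∀ τ : ℍ, γ • τ = τ → compM γ h = h := by
    intro γ hγ τ hfix
    have h1 := hmult ⟨γ, hγ⟩
    have hfo : IsOfFinOrder (⟨γ, hγ⟩ : Γ₁) := by
      have h2 := isOfFinOrder_of_smul_eq' hfix
      rw [← orderOf_pos_iff] at h2 ⊢
      rwa [Subgroup.orderOf_mk]
    rw [hfin ⟨γ, hγ⟩ hfo, zmodPow_zero, map_one, one_mul] at h1
    exact h1
  have hell : ∀ γ ∈ Γ, ∀ τ : ℍ, γ • τ = τ → compM γ h = h := by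
    intro γ hγ τ hfix
    rcases hsub γ hγ with h1 | h1
    · exact key γ h1 τ hfix
    · rw [← compM_neg']
      refine key (-γ) h1 τ ?_
      rw [ModularGroup.SL_neg_smul, hfix]
  exact dvd_ord_of_pow_eq_interiorK hZ hu hpow hell P hP

/-- **(E1), weak form** (the input `E1` of KUM-FIN): the order at a point of the upper half plane
is a multiple of the order at a place of `F`. -/
theorem e1_weak (hZ : Z.IsFull) (τ : ℍ) : ∃ (P : Place K F) (e : ℕ), ∀ f : F, f ≠ 0 →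
    ordM τ (Z.R f) = (e : ℤ) * P.ord f := by
  refine ⟨placeAt hZ τ, (eAt hZ τ).toNat, fun f hf => ?_⟩
  rw [Int.toNat_of_nonneg (eAt_pos hZ τ).le]
  exact ordM_R hZ τ hf

/-- no ramification at `τ` when only `±1` fixes `τ` in `Γ` -/
theorem eAt_eq_one (hZ : Z.IsFull) {τ : ℍ}
    (htf : ∀ γ ∈ Γ, γ • τ = τ → γ = 1 ∨ γ = -1) : eAt hZ τ = 1 := by
  obtain ⟨γ, hγ, hfix, hprim⟩ := eAt_spec hZ τ
  have hm : mult γ τ = 1 := by
    rcases htf γ hγ hfix with rfl | rfl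
    · exact mult_one' τ
    · simp [mult, den]
  rw [hm] at hprim
  have h1 : (eAt hZ τ).toNat ∣ 1 := hprim.dvd_of_pow_eq_one 1 (one_pow 1)
  have h2 : (eAt hZ τ).toNat = 1 := Nat.dvd_one.mp h1
  have h3 := Int.toNat_of_nonneg (eAt_pos hZ τ).le
  rw [h2] at h3
  exact_mod_cast h3.symm

/-- **(E1) when `Γ/±1` acts freely**: the order at `τ` IS the order at the place. -/
theorem ordM_R_of_torsionFree (hZ : Z.IsFull)
    (htf : ∀ γ ∈ Γ, ∀ τ : ℍ, γ • τ = τ → γ = 1 ∨ γ = -1) (τ : ℍ) {f : F} (hf : f ≠ 0) :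
    ordM τ (Z.R f) = (placeAt hZ τ).ord f := by
  rw [ordM_R hZ τ hf, eAt_eq_one hZ (fun γ hγ h => htf γ hγ τ h), one_mul]

end RealK

end Fermat.Agent.DS.P3.DictInt
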